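/-
PROGRAMME III (S48, Deligne–Serre), leaf X1-AN-1 'TateEis' (helper20), file 1: DEFINITIONS AND THE
SLASH FORMULA.

For a level `M`, a set `A ⊆ (ℤ/M)²` and a weight `k : ℤ`, the LATTICE SUM
`latG M A k z = ∑_{v ∈ ℤ², v mod M ∈ A} (v₀ z + v₁)^{-k}` (NO coprimality condition, unlike Mathlib's
`eisensteinSeries`).  The slash action of `γ ∈ SL₂(ℤ)` permutes the index sets:
`latG M A k ∣[k] γ = latG M (actSet M A γ) k`, `actSet M A γ = {u | u ᵥ* (γ⁻¹ mod M) ∈ A}`.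

Special cases: `tateSet M w a = {u | u ⬝ᵥ w = a}` (`w ∈ (ℤ/M)²`, `a ∈ ℤ/M`); for `w = e₁` this is the
index set of the Tate–Eisenstein series `G_{k,a}(τ) = ∑_{ω ∈ ℤMτ+ℤ} (aτ+ω)^{-k}` of the pair
`(ℂ/(ℤMτ+ℤ), τ)`, and `actSet (tateSet w a) γ = tateSet ((γ⁻¹ mod M) *ᵥ w) a`.
-/
import Mathlib

set_option autoImplicit false

namespace Fermat.Agent.DS.TateEis

open EisensteinSeries UpperHalfPlane CongruenceSubgroup ModularForm
open Matrix (vecMul_vecMul vecMul_one dotProduct_mulVec vec2_dotProduct mulVec SpecialLinearGroup)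
open scoped MatrixGroups Matrix

/-- Reduction mod `M` of an integer vector. -/
def redVec (M : ℕ) (v : Fin 2 → ℤ) : Fin 2 → ZMod M := fun i => (v i : ZMod M)

@[simp] theorem redVec_apply (M : ℕ) (v : Fin 2 → ℤ) (i : Fin 2) : redVec M v i = (v i : ZMod M) :=
  rfl

/-- Reduction mod `M` of an element of `SL₂(ℤ)`. -/
abbrev redSL (M : ℕ) (γ : SL(2, ℤ)) : SL(2, ZMod M) :=
  SpecialLinearGroup.map (Int.castRingHom (ZMod M)) γ

theorem redSL_apply (M : ℕ) (γ : SL(2, ℤ)) (i j : Fin 2) :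
    (redSL M γ).1 i j = ((γ.1 i j : ℤ) : ZMod M) := rfl

theorem redVec_vecMul (M : ℕ) (v : Fin 2 → ℤ) (γ : SL(2, ℤ)) :
    redVec M (v ᵥ* γ.1) = redVec M v ᵥ* (redSL M γ).1 := by
  funext i
  simp only [redVec_apply, Matrix.vecMul, dotProduct, Fin.sum_univ_two, redSL_apply]
  push_cast
  rfl

/-- The integer vectors whose reduction mod `M` lies in `A`. -/
def congSet (M : ℕ) (A : Set (Fin 2 → ZMod M)) : Set (Fin 2 → ℤ) := {v | redVec M v ∈ A}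

theorem mem_congSet {M : ℕ} {A : Set (Fin 2 → ZMod M)} {v : Fin 2 → ℤ} :
    v ∈ congSet M A ↔ redVec M v ∈ A := Iff.rfl

/-- The lattice sum `∑_{v mod M ∈ A} (v₀ z + v₁)^{-k}`. -/
noncomputable def latG (M : ℕ) (A : Set (Fin 2 → ZMod M)) (k : ℤ) (z : ℍ) : ℂ :=
  ∑' v : congSet M A, eisSummand k v z

/-- The transported index set. -/
def actSet (M : ℕ) (A : Set (Fin 2 → ZMod M)) (γ : SL(2, ℤ)) : Set (Fin 2 → ZMod M) :=
  {u | u ᵥ* (redSL M γ⁻¹).1 ∈ A}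

theorem mem_actSet {M : ℕ} {A : Set (Fin 2 → ZMod M)} {γ : SL(2, ℤ)} {u : Fin 2 → ZMod M} :
    u ∈ actSet M A γ ↔ u ᵥ* (redSL M γ⁻¹).1 ∈ A := Iff.rfl

theorem redSL_mul_coe (M : ℕ) (γ δ : SL(2, ℤ)) :
    (redSL M (γ * δ)).1 = (redSL M γ).1 * (redSL M δ).1 := by
  rw [redSL, map_mul]
  rfl

theorem redSL_one_coe (M : ℕ) : (redSL M 1).1 = 1 := by
  rw [redSL, map_one]
  rfl

theorem vecMul_mem_congSet {M : ℕ} {A : Set (Fin 2 → ZMod M)} (γ : SL(2, ℤ)) {v : Fin 2 → ℤ}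
    (hv : v ∈ congSet M A) : v ᵥ* γ.1 ∈ congSet M (actSet M A γ) := by
  rw [mem_congSet, mem_actSet, redVec_vecMul, vecMul_vecMul, ← redSL_mul_coe, mul_inv_cancel,
    redSL_one_coe, vecMul_one]
  exact hv

theorem vecMul_inv_mem_congSet {M : ℕ} {A : Set (Fin 2 → ZMod M)} (γ : SL(2, ℤ)) {v : Fin 2 → ℤ}
    (hv : v ∈ congSet M (actSet M A γ)) : v ᵥ* (γ⁻¹).1 ∈ congSet M A := by
  rw [mem_congSet, redVec_vecMul]
  exact hv

theorem coe_mul_inv_SL (γ : SL(2, ℤ)) : γ.1 * (γ⁻¹).1 = 1 := by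
  have : (γ * γ⁻¹).1 = 1 := by rw [mul_inv_cancel]; rfl
  exact this

theorem coe_inv_mul_SL (γ : SL(2, ℤ)) : (γ⁻¹).1 * γ.1 = 1 := by
  have : (γ⁻¹ * γ).1 = 1 := by rw [inv_mul_cancel]; rfl
  exact this

/-- Right multiplication by `γ` as a bijection of index sets. -/
def congSetEquiv (M : ℕ) (A : Set (Fin 2 → ZMod M)) (γ : SL(2, ℤ)) :
    congSet M A ≃ congSet M (actSet M A γ) where
  toFun v := ⟨v.1 ᵥ* γ.1, vecMul_mem_congSet γ v.2⟩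
  invFun v := ⟨v.1 ᵥ* (γ⁻¹).1, vecMul_inv_mem_congSet γ v.2⟩
  left_inv v := by
    apply Subtype.ext
    show v.1 ᵥ* γ.1 ᵥ* (γ⁻¹).1 = v.1
    rw [vecMul_vecMul, coe_mul_inv_SL, vecMul_one]
  right_inv v := by
    apply Subtype.ext
    show v.1 ᵥ* (γ⁻¹).1 ᵥ* γ.1 = v.1
    rw [vecMul_vecMul, coe_inv_mul_SL, vecMul_one]

@[simp] theorem congSetEquiv_apply (M : ℕ) (A : Set (Fin 2 → ZMod M)) (γ : SL(2, ℤ))
    (v : congSet M A) : ((congSetEquiv M A γ v : congSet M (actSet M A γ)) : Fin 2 → ℤ) =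
      v.1 ᵥ* γ.1 := rfl

/-- THE SLASH FORMULA: `latG M A k ∣[k] γ = latG M (actSet M A γ) k`, every `k : ℤ`. -/
theorem latG_slash (M : ℕ) (A : Set (Fin 2 → ZMod M)) (k : ℤ) (γ : SL(2, ℤ)) :
    latG M A k ∣[k] γ = latG M (actSet M A γ) k := by
  ext1 z
  simp_rw [SL_slash_apply, _root_.zpow_neg,
    mul_inv_eq_iff_eq_mul₀ (zpow_ne_zero _ <| denom_ne_zero _ z),
    latG, eisSummand_SL2_apply, tsum_mul_left, mul_comm (_ ^ k)]
  congr 1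
  exact (congSetEquiv M A γ).tsum_eq (eisSummand k · z)

theorem actSet_one (M : ℕ) (A : Set (Fin 2 → ZMod M)) : actSet M A 1 = A := by
  ext u
  rw [mem_actSet, inv_one, redSL_one_coe, vecMul_one]

theorem actSet_mul (M : ℕ) (A : Set (Fin 2 → ZMod M)) (γ δ : SL(2, ℤ)) :
    actSet M A (γ * δ) = actSet M (actSet M A γ) δ := by
  ext u
  rw [mem_actSet, mem_actSet, mem_actSet, _root_.mul_inv_rev, redSL_mul_coe, vecMul_vecMul]

theorem actSet_of_mem_Gamma {M : ℕ} (A : Set (Fin 2 → ZMod M)) {γ : SL(2, ℤ)} (hγ : γ ∈ Gamma M) :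
    actSet M A γ = A := by
  ext u
  have h : redSL M γ⁻¹ = 1 := Gamma_mem'.mp ((Gamma M).inv_mem hγ)
  rw [mem_actSet, h]
  show u ᵥ* (1 : Matrix (Fin 2) (Fin 2) (ZMod M)) ∈ A ↔ u ∈ A
  rw [vecMul_one]

/-- The sets `{u | u ⬝ᵥ w = a}`. -/
def tateSet (M : ℕ) (w : Fin 2 → ZMod M) (a : ZMod M) : Set (Fin 2 → ZMod M) := {u | u ⬝ᵥ w = a}

theorem mem_tateSet {M : ℕ} {w : Fin 2 → ZMod M} {a : ZMod M} {u : Fin 2 → ZMod M} :
    u ∈ tateSet M w a ↔ u ⬝ᵥ w = a := Iff.rfl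

theorem actSet_tateSet (M : ℕ) (w : Fin 2 → ZMod M) (a : ZMod M) (γ : SL(2, ℤ)) :
    actSet M (tateSet M w a) γ = tateSet M ((redSL M γ⁻¹).1 *ᵥ w) a := by
  ext u
  rw [mem_actSet, mem_tateSet, mem_tateSet, dotProduct_mulVec]

/-- The first basis vector. -/
def e₁ (M : ℕ) : Fin 2 → ZMod M := ![1, 0]

theorem mem_tateSet_e₁ {M : ℕ} {a : ZMod M} {u : Fin 2 → ZMod M} :
    u ∈ tateSet M (e₁ M) a ↔ u 0 = a := by
  rw [mem_tateSet, e₁, dotProduct, Fin.sum_univ_two]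
  simp

theorem mulVec_e₁ (M : ℕ) (γ : SL(2, ℤ)) :
    (redSL M γ).1 *ᵥ e₁ M = ![((γ.1 0 0 : ℤ) : ZMod M), ((γ.1 1 0 : ℤ) : ZMod M)] := by
  funext i
  fin_cases i <;> simp [e₁, mulVec, dotProduct, Fin.sum_univ_two, redSL_apply]

theorem mulVec_e₁_of_mem_Gamma1 {M : ℕ} {γ : SL(2, ℤ)} (hγ : γ ∈ Gamma1 M) :
    (redSL M γ⁻¹).1 *ᵥ e₁ M = e₁ M := by
  have h := (Gamma1_mem M γ⁻¹).mp ((Gamma1 M).inv_mem hγ)
  rw [mulVec_e₁, e₁, h.1, h.2.2]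

theorem actSet_tateSet_e₁_of_mem_Gamma1 {M : ℕ} (a : ZMod M) {γ : SL(2, ℤ)} (hγ : γ ∈ Gamma1 M) :
    actSet M (tateSet M (e₁ M) a) γ = tateSet M (e₁ M) a := by
  rw [actSet_tateSet, mulVec_e₁_of_mem_Gamma1 hγ]

end Fermat.Agent.DS.TateEis
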