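/-
PROGRAMME III (S48, Deligne–Serre), leaf X1-AN-1 'TateEis' (helper20), file 2: HOLOMORPHY AND CUSPS.

Ports of Mathlib's `EisensteinSeries/{UniformConvergence, MDifferentiable, IsBoundedAtImInfty, Basic}`
from the coprime index sets `gammaSet N 1 a` to the congruence index sets `congSet M A` (the bounds of
Mathlib hold for every `v ∈ ℤ²`):

* `summable_eisSummand_congSet`, `latG_tendstoLocallyUniformly(On)`, `latG_mdifferentiable` (`3 ≤ k`);
* `latGSIF M A k : SlashInvariantForm (Gamma M) k`, `latG_isBoundedAtImInfty` (every `SL₂(ℤ)`-translate);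
* `latGMF hk Γ A hA : ModularForm Γ k` for `Γ ≤ SL₂(ℤ)` of finite index preserving `A`
  (`hA : ∀ γ ∈ Γ, actSet M A γ = A`);
* `tateG M hk a : ModularForm (Gamma1 M) k`, `tateG M hk a z = ∑_{v₀ ≡ a (M)} (v₀ z + v₁)^{-k}`.
-/
import Mathlib
import Fermat.Agent.DS.TateEis.Defs

set_option autoImplicit false

namespace Fermat.Agent.DS.TateEis

open EisensteinSeries UpperHalfPlane CongruenceSubgroup ModularForm Filter Complex Set
open scoped MatrixGroups Matrix Manifold Topology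

variable {M : ℕ} (A : Set (Fin 2 → ZMod M)) {k : ℤ}

theorem summable_norm_eisSummand_congSet (hk : 3 ≤ k) (z : ℍ) :
    Summable fun v : congSet M A => ‖eisSummand k v z‖ :=
  (summable_norm_eisSummand hk z).subtype _

theorem summable_eisSummand_congSet (hk : 3 ≤ k) (z : ℍ) :
    Summable fun v : congSet M A => eisSummand k v z :=
  (summable_norm_eisSummand_congSet A hk z).of_norm

theorem hasSum_latG (hk : 3 ≤ k) (z : ℍ) :
    HasSum (fun v : congSet M A => eisSummand k v z) (latG M A k z) :=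
  (summable_eisSummand_congSet A hk z).hasSum

/-- The sum defining `latG` converges locally uniformly on `ℍ`. -/
theorem latG_tendstoLocallyUniformly (hk : 3 ≤ k) :
    TendstoLocallyUniformly (fun (s : Finset (congSet M A)) ↦ (∑ x ∈ s, eisSummand k x ·))
      (latG M A k ·) Filter.atTop := by
  have hk' : (2 : ℝ) < k := by norm_cast
  have p_sum : Summable fun x : congSet M A ↦ ‖x.val‖ ^ (-k) :=
    mod_cast (summable_one_div_norm_rpow hk').subtype (· ∈ congSet M A)
  simp only [tendstoLocallyUniformly_iff_forall_isCompact, latG]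
  intro K hK
  obtain ⟨A', B, hB, HABK⟩ := subset_verticalStrip_of_isCompact hK
  refine (tendstoUniformlyOn_tsum (hu := p_sum.mul_left <| r ⟨⟨A', B⟩, hB⟩ ^ (-k : ℝ))
    (fun p z hz ↦ ?_)).mono HABK
  simpa only [eisSummand, one_div, ← zpow_neg, norm_zpow, ← Real.rpow_intCast,
    Int.cast_neg] using summand_bound_of_mem_verticalStrip (by positivity) p hB hz

theorem latG_tendstoLocallyUniformlyOn (hk : 3 ≤ k) :
    TendstoLocallyUniformlyOn (fun (s : Finset (congSet M A)) ↦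
      ↑ₕ(fun (z : ℍ) ↦ ∑ x ∈ s, eisSummand k x z)) (↑ₕ(latG M A k))
          Filter.atTop {z : ℂ | 0 < z.im} := by
  rw [← upperHalfPlaneSet, ← range_coe, ← image_univ]
  apply TendstoLocallyUniformlyOn.comp (s := ⊤) _ _ _ (OpenPartialHomeomorph.continuousOn_symm _)
  · simp only [Set.top_eq_univ, tendstoLocallyUniformlyOn_univ]
    apply latG_tendstoLocallyUniformly A hk
  · simp only [Topology.IsOpenEmbedding.toOpenPartialHomeomorph_target, Set.top_eq_univ, mapsTo_range_iff,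
    Set.mem_univ, forall_const]

/-- `latG M A k` is holomorphic on `ℍ` for `3 ≤ k`. -/
theorem latG_mdifferentiable (hk : 3 ≤ k) : MDiff (latG M A k) := by
  intro τ
  suffices DifferentiableAt ℂ (↑ₕ(latG M A k)) τ.1 by
    convert!
      MDifferentiableAt.comp τ (DifferentiableAt.mdifferentiableAt this) τ.mdifferentiable_coe
    exact funext fun z ↦ (comp_ofComplex (latG M A k) z).symm
  refine DifferentiableOn.differentiableAt ?_ (isOpen_upperHalfPlaneSet.mem_nhds τ.2)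
  exact (latG_tendstoLocallyUniformlyOn A hk).differentiableOn
    (Eventually.of_forall fun s ↦ DifferentiableOn.fun_sum
    fun _ _ ↦ eisSummand_extension_differentiableOn _ _) isOpen_upperHalfPlaneSet

variable (M) in
/-- `latG M A k` as a slash invariant form on `Γ(M)`. -/
noncomputable def latGSIF (k : ℤ) : SlashInvariantForm (Gamma M) k where
  toFun := latG M A k
  slash_action_eq' γ hγ := by
    obtain ⟨γ, (hγ : γ ∈ Γ(M)), rfl⟩ := hγ
    show latG M A k ∣[k] γ = _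
    rw [latG_slash, actSet_of_mem_Gamma A hγ]

theorem latGSIF_apply (k : ℤ) (z : ℍ) : latGSIF M A k z = latG M A k z := rfl

theorem norm_latG_le_tsum_norm (hk : 3 ≤ k) (z : ℍ) :
    ‖latG M A k z‖ ≤ ∑' (x : Fin 2 → ℤ), ‖eisSummand k x z‖ := by
  simp_rw [latG]
  apply le_trans (norm_tsum_le_tsum_norm ((summable_norm_eisSummand hk z).subtype _))
    (Summable.tsum_subtype_le (fun (x : Fin 2 → ℤ) ↦ ‖(eisSummand k x z)‖) _ (fun _ ↦ norm_nonneg _)
      (summable_norm_eisSummand hk z))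

/-- Every `SL₂(ℤ)`-translate of `latG M A k` is bounded at `i∞`. -/
theorem latG_isBoundedAtImInfty [NeZero M] (hk : 3 ≤ k) (γ : SL(2, ℤ)) :
    IsBoundedAtImInfty (latG M A k ∣[k] γ) := by
  simp_rw [UpperHalfPlane.isBoundedAtImInfty_iff]
  refine ⟨∑'(x : Fin 2 → ℤ), r ⟨⟨M, 2⟩, Nat.ofNat_pos⟩ ^ (-k) * ‖x‖ ^ (-k), 2, ?_⟩
  intro z hz
  obtain ⟨n, hn⟩ := (ModularGroup_T_zpow_mem_verticalStrip z (NeZero.pos M))
  rw [latG_slash, ← latGSIF_apply,
    ← SlashInvariantForm.T_zpow_width_invariant M k n (latGSIF M (actSet M A γ) k) z]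
  apply le_trans (norm_latG_le_tsum_norm (actSet M A γ) hk _)
  have hk' : (2 : ℝ) < k := by norm_cast
  apply (summable_norm_eisSummand hk _).tsum_le_tsum _
  · exact_mod_cast (summable_one_div_norm_rpow hk').mul_left <| r ⟨⟨M, 2⟩, Nat.ofNat_pos⟩ ^ (-k)
  · intro x
    simp_rw [eisSummand, norm_zpow]
    exact_mod_cast
      summand_bound_of_mem_verticalStrip (lt_trans two_pos hk').le x two_pos
      (verticalStrip_anti_right M hz hn)

/-- `latG M A k` as a modular form on a subgroup `Γ` of `SL₂(ℤ)` preserving the index set. -/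
noncomputable def latGMF [NeZero M] (hk : 3 ≤ k) (Γ : Subgroup SL(2, ℤ)) [Γ.FiniteIndex]
    (hA : ∀ γ ∈ Γ, actSet M A γ = A) : ModularForm Γ k where
  toFun := latG M A k
  slash_action_eq' γ hγ := by
    obtain ⟨γ, (hγ : γ ∈ Γ), rfl⟩ := hγ
    show latG M A k ∣[k] γ = _
    rw [latG_slash, hA γ hγ]
  holo' := latG_mdifferentiable A hk
  bdd_at_cusps' {c} hc := by
    rw [Subgroup.IsArithmetic.isCusp_iff_isCusp_SL2Z] at hc
    rw [OnePoint.isBoundedAt_iff_forall_SL2Z hc]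
    exact fun γ _ ↦ latG_isBoundedAtImInfty A hk γ

@[simp] theorem latGMF_apply [NeZero M] (hk : 3 ≤ k) (Γ : Subgroup SL(2, ℤ)) [Γ.FiniteIndex]
    (hA : ∀ γ ∈ Γ, actSet M A γ = A) (z : ℍ) : latGMF A hk Γ hA z = latG M A k z := rfl

theorem coe_latGMF [NeZero M] (hk : 3 ≤ k) (Γ : Subgroup SL(2, ℤ)) [Γ.FiniteIndex]
    (hA : ∀ γ ∈ Γ, actSet M A γ = A) : ⇑(latGMF A hk Γ hA) = latG M A k := rfl

variable (M) in
/-- THE TATE–EISENSTEIN SERIES `G_{k,a}(τ) = ∑_{v₀ ≡ a (M), v₁ ∈ ℤ} (v₀ τ + v₁)^{-k}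
  = ∑_{ω ∈ ℤMτ+ℤ} (aτ+ω)^{-k}`, a modular form of weight `k ≥ 3` on `Γ₁(M)`. -/
noncomputable def tateG [NeZero M] (hk : 3 ≤ k) (a : ZMod M) : ModularForm (Gamma1 M) k :=
  latGMF (tateSet M (e₁ M) a) hk (Gamma1 M) fun _ hγ => actSet_tateSet_e₁_of_mem_Gamma1 a hγ

theorem coe_tateG [NeZero M] (hk : 3 ≤ k) (a : ZMod M) :
    ⇑(tateG M hk a) = latG M (tateSet M (e₁ M) a) k := rfl

/-- The `SL₂(ℤ)`-translates of `tateG`. -/
theorem tateG_slash [NeZero M] (hk : 3 ≤ k) (a : ZMod M) (γ : SL(2, ℤ)) :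
    ⇑(tateG M hk a) ∣[k] γ = latG M (tateSet M ((redSL M γ⁻¹).1 *ᵥ e₁ M) a) k := by
  rw [coe_tateG, latG_slash, actSet_tateSet]

end Fermat.Agent.DS.TateEis
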