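/-
PROGRAMME III (S48, Deligne–Serre), leaf X1-AN-1 'TateEis' (helper20), file 3: ROW SUMS.

`latG M (tateSet M (e₁ M) a) k z = ∑_{m ≡ a (M)} rowSum k m z`, `rowSum k m z = ∑_n (m z + n)^{-k}`, and
the Lipschitz formula for the rows (Mathlib's `EisensteinSeries.qExpansion_identity_pnat`):
`rowSum k b z = c_k ∑_{d ≥ 1} d^{k-1} q^{b d}` (`b > 0`), `rowSum k (-m) z = (-1)^k rowSum k m z`.
-/
import Mathlib
import Fermat.Agent.DS.TateEis.Holo

set_option autoImplicit false

namespace Fermat.Agent.DS.TateEis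

open EisensteinSeries CongruenceSubgroup ModularForm Filter Complex
open UpperHalfPlane hiding I
open scoped MatrixGroups Matrix Real Nat Topology

variable {M : ℕ}

/-- The row sum `∑_n (m z + n)^{-k}`. -/
noncomputable def rowSum (k : ℕ) (m : ℤ) (z : ℍ) : ℂ := ∑' n : ℤ, eisSummand k ![m, n] z

theorem latG_tateSet_e₁_eq_tsum_rowSum {k : ℕ} (hk : 3 ≤ k) (a : ZMod M) (z : ℍ) :
    latG M (tateSet M (e₁ M) a) k z =
      ∑' m : ℤ, if (m : ZMod M) = a then rowSum k m z else 0 := by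
  classical
  have hs := summable_prod_eisSummand hk z
  set S : Set (ℤ × ℤ) := {p | (p.1 : ZMod M) = a} with hS
  have h1 : latG M (tateSet M (e₁ M) a) k z =
      ∑' p : ℤ × ℤ, S.indicator (fun x => eisSummand k ![x.1, x.2] z) p := by
    rw [latG, tsum_subtype (congSet M (tateSet M (e₁ M) a)) (fun v => eisSummand k v z),
      ← (finTwoArrowEquiv ℤ).symm.tsum_eq]
    refine tsum_congr fun p => ?_
    by_cases hp : (p.1 : ZMod M) = a
    · have h2 : (finTwoArrowEquiv ℤ).symm p ∈ congSet M (tateSet M (e₁ M) a) := by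
        rw [mem_congSet, mem_tateSet_e₁]
        simpa using hp
      have h3 : p ∈ S := hp
      rw [Set.indicator_of_mem h2, Set.indicator_of_mem h3]
      rfl
    · have h2 : (finTwoArrowEquiv ℤ).symm p ∉ congSet M (tateSet M (e₁ M) a) := by
        rw [mem_congSet, mem_tateSet_e₁]
        simpa using hp
      have h3 : p ∉ S := hp
      rw [Set.indicator_of_notMem h2, Set.indicator_of_notMem h3]
  rw [h1, (hs.indicator S).tsum_prod]
  refine tsum_congr fun m => ?_
  by_cases hm : (m : ZMod M) = a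
  · rw [if_pos hm, rowSum]
    refine tsum_congr fun n => ?_
    have h3 : (m, n) ∈ S := hm
    rw [Set.indicator_of_mem h3]
  · rw [if_neg hm]
    have : ∀ n : ℤ, S.indicator (fun x => eisSummand k ![x.1, x.2] z) (m, n) = 0 := fun n => by
      have h3 : (m, n) ∉ S := hm
      rw [Set.indicator_of_notMem h3]
    simp only [this, tsum_zero]

theorem summable_tsum_rowSum {k : ℕ} (hk : 3 ≤ k) (a : ZMod M) (z : ℍ) :
    Summable fun m : ℤ => if (m : ZMod M) = a then rowSum k m z else 0 := by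
  classical
  have hs := summable_prod_eisSummand hk z
  set S : Set (ℤ × ℤ) := {p | (p.1 : ZMod M) = a} with hS
  have h := (hs.indicator S).prod
  refine h.congr fun m => ?_
  by_cases hm : (m : ZMod M) = a
  · rw [if_pos hm, rowSum]
    refine tsum_congr fun n => ?_
    have h3 : (m, n) ∈ S := hm
    rw [Set.indicator_of_mem h3]
  · rw [if_neg hm]
    have : ∀ n : ℤ, S.indicator (fun x => eisSummand k ![x.1, x.2] z) (m, n) = 0 := fun n => by
      have h3 : (m, n) ∉ S := hm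
      rw [Set.indicator_of_notMem h3]
    simp only [this, tsum_zero]

theorem eisSummand_mk (k : ℕ) (m n : ℤ) (z : ℍ) :
    eisSummand k ![m, n] z = (((m : ℂ) * z + n) ^ k)⁻¹ := by
  simp [eisSummand, zpow_neg]

/-- The Lipschitz formula for a positive row. -/
theorem rowSum_pos {k : ℕ} (hk : 3 ≤ k) (b : ℕ+) (z : ℍ) :
    rowSum k (b : ℕ) z = ((-2 * π * I) ^ k / (k - 1)!) *
      ∑' d : ℕ+, ((d : ℕ) : ℂ) ^ (k - 1) * cexp (2 * π * I * z) ^ ((b : ℕ) * (d : ℕ)) := by
  have H := qExpansion_identity_pnat (k := k - 1) (by omega)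
    ⟨(b : ℕ) * z, by simpa using z.2⟩
  rw [show k - 1 + 1 = k by omega] at H
  have h1 : rowSum k (b : ℕ) z = ∑' n : ℤ, 1 / ((((b : ℕ) : ℂ) * z) + n) ^ k := by
    rw [rowSum]
    refine tsum_congr fun n => ?_
    rw [eisSummand_mk, one_div]
    simp
  rw [h1]
  have h2 : ((⟨((b : ℕ) : ℂ) * z, by simpa using z.2⟩ : ℍ) : ℂ) = ((b : ℕ) : ℂ) * z := rfl
  rw [h2] at H
  rw [H]
  congr 1
  refine tsum_congr fun d => ?_
  congr 1
  rw [← Complex.exp_nat_mul, ← Complex.exp_nat_mul]
  congr 1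
  push_cast
  ring

theorem rowSum_neg (k : ℕ) (m : ℤ) (z : ℍ) : rowSum k (-m) z = (-1) ^ k * rowSum k m z := by
  unfold rowSum
  rw [← tsum_mul_left, ← (Equiv.neg ℤ).tsum_eq]
  refine tsum_congr fun n => ?_
  rw [eisSummand_mk, eisSummand_mk]
  have : ((-m : ℤ) : ℂ) * z + ((Equiv.neg ℤ n : ℤ) : ℂ) = -((m : ℂ) * z + n) := by
    simp only [Equiv.neg_apply]
    push_cast
    ring
  rw [this, neg_pow, mul_inv]
  congr 1
  rcases Nat.even_or_odd k with h | h
  · simp [h.neg_one_pow]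
  · simp [h.neg_one_pow]

theorem rowSum_zero (k : ℕ) (z : ℍ) : rowSum k 0 z = ∑' n : ℤ, ((n : ℂ) ^ k)⁻¹ := by
  unfold rowSum
  refine tsum_congr fun n => ?_
  rw [eisSummand_mk]
  simp

end Fermat.Agent.DS.TateEis
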