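/-
PROGRAMME III (S48, Deligne–Serre), leaf X1-AN-1 'TateEis' (helper20), file 4: THE q-EXPANSION.

* `hasSum_lambert` : Lambert rearrangement with bounded weights,
  `∑_m u(m) ∑_d d^j q^{md} = ∑_N (∑_{m d = N} u(m) d^j) q^N`;
* `tateCoeff M k a n = ∑_{d ∣ n, n/d ≡ a} d^{k-1} + (-1)^k ∑_{d ∣ n, n/d ≡ -a} d^{k-1} : ℤ`,
  `tateP M k a : PowerSeries ℤ`;
* `tateG_hasSum` / `tateG_qExpansion` : `qExpansion 1 (tateG M hk a) =
  C (if a = 0 then ∑_{n ∈ ℤ} n^{-k} else 0) + C ((-2πi)^k/(k-1)!) * map (tateP M k a)`.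
-/
import Mathlib
import Fermat.Agent.DS.TateEis.Rows

set_option autoImplicit false

namespace Fermat.Agent.DS.TateEis

open EisensteinSeries CongruenceSubgroup ModularForm Filter Complex
open UpperHalfPlane hiding I
open scoped MatrixGroups Matrix Real Nat Topology

variable {M : ℕ}

/-- Lambert rearrangement with bounded weights. -/
theorem hasSum_lambert (j : ℕ) {q : ℂ} (hq : ‖q‖ < 1) (u : ℕ → ℂ) (C : ℝ)
    (hu : ∀ m, ‖u m‖ ≤ C) :
    HasSum (fun N : ℕ+ => (∑ x ∈ (N : ℕ).divisorsAntidiagonal, u x.1 * (x.2 : ℂ) ^ j) * q ^ (N : ℕ))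
      (∑' m : ℕ+, u m * ∑' d : ℕ+, ((d : ℕ) : ℂ) ^ j * q ^ ((m : ℕ) * (d : ℕ))) := by
  set F : ℕ+ × ℕ+ → ℂ := fun p => u p.1 * (((p.2 : ℕ) : ℂ) ^ j * q ^ ((p.1 : ℕ) * (p.2 : ℕ))) with hF
  have hbase : Summable fun c : ℕ+ × ℕ+ => ((c.2 : ℕ) : ℂ) ^ j * q ^ ((c.1 : ℕ) * (c.2 : ℕ)) := by
    simpa using summable_prod_mul_pow j hq
  have hFs : Summable F := by
    refine Summable.of_norm_bounded (hbase.norm.mul_left C) fun p => ?_
    rw [hF]
    simp only [norm_mul]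
    exact mul_le_mul_of_nonneg_right (hu _) (by positivity)
  have h2 : HasSum (F ∘ sigmaAntidiagonalEquivProd) (∑' p, F p) :=
    sigmaAntidiagonalEquivProd.hasSum_iff.mpr hFs.hasSum
  have h3 := h2.sigma (fun N => hasSum_fintype _)
  have hval : ∑' p, F p = ∑' m : ℕ+, u m * ∑' d : ℕ+, ((d : ℕ) : ℂ) ^ j * q ^ ((m : ℕ) * (d : ℕ)) := by
    rw [hFs.tsum_prod]
    refine tsum_congr fun m => ?_
    rw [← tsum_mul_left]
  rw [← hval]
  convert h3 using 1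
  funext N
  rw [Finset.sum_mul, ← Finset.sum_coe_sort ((N : ℕ).divisorsAntidiagonal)]
  refine Finset.sum_congr rfl fun x _ => ?_
  have hx := (Nat.mem_divisorsAntidiagonal.mp x.2).1
  simp only [Function.comp, hF, sigmaAntidiagonalEquivProd, divisorsAntidiagonalFactors,
    Equiv.coe_fn_mk, PNat.mk_coe]
  rw [hx]
  ring

/-- The `n`-th coefficient of the normalised `q`-expansion of `G_{k,a}`:
`∑_{d ∣ n, n/d ≡ a} d^{k-1} + (-1)^k ∑_{d ∣ n, n/d ≡ -a} d^{k-1}`. -/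
def tateCoeff (M k : ℕ) (a : ZMod M) (n : ℕ) : ℤ :=
  (∑ d ∈ n.divisors, if ((n / d : ℕ) : ZMod M) = a then (d : ℤ) ^ (k - 1) else 0) +
    (-1) ^ k * ∑ d ∈ n.divisors, if ((n / d : ℕ) : ZMod M) = -a then (d : ℤ) ^ (k - 1) else 0

@[simp] theorem tateCoeff_zero (M k : ℕ) (a : ZMod M) : tateCoeff M k a 0 = 0 := by
  simp [tateCoeff]

/-- The normalised `q`-expansion of `G_{k,a}`, an INTEGRAL power series:
`∑_{m > 0, m ≡ a} ∑_{d ≥ 1} d^{k-1} q^{md} + (-1)^k ∑_{m > 0, m ≡ -a} ∑_{d ≥ 1} d^{k-1} q^{md}`. -/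
def tateP (M k : ℕ) (a : ZMod M) : PowerSeries ℤ := PowerSeries.mk (tateCoeff M k a)

@[simp] theorem coeff_tateP (M k : ℕ) (a : ZMod M) (n : ℕ) :
    (tateP M k a).coeff n = tateCoeff M k a n := by
  simp [tateP]

/-- The constant term of `G_{k,a}` (non-zero only for `a = 0`). -/
noncomputable def tateConst (M k : ℕ) (a : ZMod M) : ℂ :=
  if a = 0 then ∑' n : ℤ, ((n : ℂ) ^ k)⁻¹ else 0

/-- The Lipschitz constant `(-2πi)^k/(k-1)!`. -/
noncomputable def lipC (k : ℕ) : ℂ := (-2 * π * I) ^ k / (k - 1)!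

theorem lipC_ne_zero (k : ℕ) : lipC k ≠ 0 := by
  unfold lipC
  apply div_ne_zero
  · apply pow_ne_zero
    simp [Real.pi_ne_zero, I_ne_zero]
  · exact_mod_cast Nat.factorial_ne_zero _

theorem tateCoeff_cast (M k : ℕ) (a : ZMod M) (n : ℕ) :
    ((tateCoeff M k a n : ℤ) : ℂ) =
      (∑ x ∈ n.divisorsAntidiagonal,
        (if ((x.1 : ℕ) : ZMod M) = a then (1 : ℂ) else 0) * (x.2 : ℂ) ^ (k - 1)) +
      ∑ x ∈ n.divisorsAntidiagonal,
        (if ((x.1 : ℕ) : ZMod M) = -a then ((-1 : ℂ)) ^ k else 0) * (x.2 : ℂ) ^ (k - 1) := by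
  rw [Nat.sum_divisorsAntidiagonal' (fun i j =>
      (if ((i : ℕ) : ZMod M) = a then (1 : ℂ) else 0) * (j : ℂ) ^ (k - 1)),
    Nat.sum_divisorsAntidiagonal' (fun i j =>
      (if ((i : ℕ) : ZMod M) = -a then ((-1 : ℂ)) ^ k else 0) * (j : ℂ) ^ (k - 1))]
  unfold tateCoeff
  push_cast
  congr 1
  · refine Finset.sum_congr rfl fun d _ => ?_
    split_ifs <;> simp
  · rw [Finset.mul_sum]
    refine Finset.sum_congr rfl fun d _ => ?_
    split_ifs <;> simp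

/-- THE `q`-EXPANSION, pointwise `HasSum` form over `ℕ+`. -/
theorem latG_tate_hasSum {k : ℕ} (hk : 3 ≤ k) (a : ZMod M) (z : ℍ) :
    HasSum (fun N : ℕ+ => (lipC k * (tateCoeff M k a N : ℂ)) * cexp (2 * π * I * z) ^ (N : ℕ))
      (latG M (tateSet M (e₁ M) a) k z - tateConst M k a) := by
  classical
  set q : ℂ := cexp (2 * π * I * z) with hqdef
  have hq : ‖q‖ < 1 := norm_exp_two_pi_I_lt_one z
  set u₁ : ℕ → ℂ := fun m => if ((m : ℕ) : ZMod M) = a then (1 : ℂ) else 0 with hu₁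
  set u₂ : ℕ → ℂ := fun m => if ((m : ℕ) : ZMod M) = -a then ((-1 : ℂ)) ^ k else 0 with hu₂
  have hb₁ : ∀ m, ‖u₁ m‖ ≤ 1 := fun m => by
    rw [hu₁]; dsimp only; split_ifs <;> simp
  have hb₂ : ∀ m, ‖u₂ m‖ ≤ 1 := fun m => by
    rw [hu₂]; dsimp only; split_ifs <;> simp
  have L₁ := hasSum_lambert (k - 1) hq u₁ 1 hb₁
  have L₂ := hasSum_lambert (k - 1) hq u₂ 1 hb₂
  have L := (L₁.add L₂).mul_left (lipC k)
  -- the value
  have hval : latG M (tateSet M (e₁ M) a) k z - tateConst M k a =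
      lipC k * ((∑' m : ℕ+, u₁ m * ∑' d : ℕ+, ((d : ℕ) : ℂ) ^ (k - 1) * q ^ ((m : ℕ) * (d : ℕ))) +
        ∑' m : ℕ+, u₂ m * ∑' d : ℕ+, ((d : ℕ) : ℂ) ^ (k - 1) * q ^ ((m : ℕ) * (d : ℕ))) := by
    rw [latG_tateSet_e₁_eq_tsum_rowSum hk a z,
      tsum_int_eq_zero_add_tsum_pnat (summable_tsum_rowSum hk a z)]
    have h0 : (if ((0 : ℤ) : ZMod M) = a then rowSum k 0 z else 0) = tateConst M k a := by
      unfold tateConst
      rw [rowSum_zero, Int.cast_zero]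
      by_cases ha : a = 0
      · rw [if_pos ha, if_pos ha.symm]
      · rw [if_neg ha, if_neg (Ne.symm ha)]
    have h1 : ∀ m : ℕ+, (if (((m : ℕ) : ℤ) : ZMod M) = a then rowSum k ((m : ℕ) : ℤ) z else 0) =
        lipC k * (u₁ m * ∑' d : ℕ+, ((d : ℕ) : ℂ) ^ (k - 1) * q ^ ((m : ℕ) * (d : ℕ))) := by
      intro m
      rw [hu₁]
      dsimp only
      rw [Int.cast_natCast]
      by_cases hm : ((m : ℕ) : ZMod M) = a
      · rw [if_pos hm, if_pos hm, one_mul, rowSum_pos hk m z, lipC]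
      · rw [if_neg hm, if_neg hm, zero_mul, mul_zero]
    have h2 : ∀ m : ℕ+, (if ((-((m : ℕ) : ℤ) : ℤ) : ZMod M) = a then rowSum k (-((m : ℕ) : ℤ)) z
        else 0) =
        lipC k * (u₂ m * ∑' d : ℕ+, ((d : ℕ) : ℂ) ^ (k - 1) * q ^ ((m : ℕ) * (d : ℕ))) := by
      intro m
      rw [hu₂]
      dsimp only
      have e : (((-((m : ℕ) : ℤ) : ℤ) : ZMod M) = a) ↔ (((m : ℕ) : ZMod M) = -a) := by
        rw [Int.cast_neg, Int.cast_natCast, neg_eq_iff_eq_neg]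
      by_cases hm : ((m : ℕ) : ZMod M) = -a
      · rw [if_pos (e.mpr hm), if_pos hm, rowSum_neg, rowSum_pos hk m z, lipC]
        ring
      · rw [if_neg (fun h => hm (e.mp h)), if_neg hm, zero_mul, mul_zero]
    rw [h0]
    simp only [h1, h2]
    rw [tsum_mul_left, tsum_mul_left]
    ring
  rw [hval]
  have hfun : (fun N : ℕ+ => (lipC k * (tateCoeff M k a N : ℂ)) * q ^ (N : ℕ)) =
      fun N : ℕ+ => lipC k *
        ((∑ x ∈ (N : ℕ).divisorsAntidiagonal, u₁ x.1 * (x.2 : ℂ) ^ (k - 1)) * q ^ (N : ℕ) +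
          (∑ x ∈ (N : ℕ).divisorsAntidiagonal, u₂ x.1 * (x.2 : ℂ) ^ (k - 1)) * q ^ (N : ℕ)) := by
    funext N
    rw [tateCoeff_cast]
    ring
  rw [hfun]
  exact L

theorem T_mem_Gamma1 (M : ℕ) : ModularGroup.T ∈ Gamma1 M := by
  rw [Gamma1_mem]
  simp [ModularGroup.T]

theorem one_mem_strictPeriods_Gamma1 (M : ℕ) :
    (1 : ℝ) ∈ ((Gamma1 M : Subgroup SL(2, ℤ)) : Subgroup (GL (Fin 2) ℝ)).strictPeriods := by
  rw [Subgroup.strictPeriods_eq_zmultiples_one_of_T_mem (T_mem_Gamma1 M)]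
  exact AddSubgroup.mem_zmultiples 1

local notation "𝕢" => Function.Periodic.qParam

/-- The coefficients of the `q`-expansion of `tateG`. -/
noncomputable def tateGCoeff (M k : ℕ) (a : ZMod M) (n : ℕ) : ℂ :=
  if n = 0 then tateConst M k a else lipC k * (tateCoeff M k a n : ℂ)

/-- THE `q`-EXPANSION of `G_{k,a}`, `HasSum` form. -/
theorem tateG_hasSum [NeZero M] {k : ℕ} (hk : 3 ≤ k) (a : ZMod M) (z : ℍ) :
    HasSum (fun n : ℕ => tateGCoeff M k a n • 𝕢 1 z ^ n)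
      (tateG M (k := (k : ℤ)) (by exact_mod_cast hk) a z) := by
  have h := latG_tate_hasSum (M := M) hk a z
  have hq : 𝕢 1 z = cexp (2 * π * I * z) := by
    simp [Function.Periodic.qParam]
  have h' : HasSum (fun N : ℕ+ => (fun n : ℕ => tateGCoeff M k a n • 𝕢 1 z ^ n) N)
      (latG M (tateSet M (e₁ M) a) k z - tateConst M k a) := by
    have hfun : (fun N : ℕ+ => (fun n : ℕ => tateGCoeff M k a n • 𝕢 1 z ^ n) N) =
        fun N : ℕ+ => (lipC k * (tateCoeff M k a N : ℂ)) * cexp (2 * π * I * z) ^ (N : ℕ) := by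
      funext N
      simp only [tateGCoeff, if_neg (PNat.ne_zero N), smul_eq_mul, hq]
    rw [hfun]
    exact h
  have h'' := (hasSum_pnat_iff (f := fun n : ℕ => tateGCoeff M k a n • 𝕢 1 z ^ n)).mp h'
  have h0 : tateGCoeff M k a 0 • 𝕢 1 z ^ 0 = tateConst M k a := by
    simp [tateGCoeff]
  rw [h0, sub_add_cancel] at h''
  exact h''

/-- THE `q`-EXPANSION of `G_{k,a}`, coefficientwise. -/
theorem tateG_qExpansion_coeff [NeZero M] {k : ℕ} (hk : 3 ≤ k) (a : ZMod M) (n : ℕ) :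
    (qExpansion 1 (tateG M (k := (k : ℤ)) (by exact_mod_cast hk) a)).coeff n =
      tateGCoeff M k a n :=
  (ModularFormClass.qExpansion_coeff_unique one_pos (one_mem_strictPeriods_Gamma1 M)
    (tateG_hasSum hk a) n).symm

/-- THE `q`-EXPANSION of `G_{k,a}` as a power series: constant term (only for `a = 0`) plus
`(-2πi)^k/(k-1)!` times the INTEGRAL series `tateP M k a`. -/
theorem tateG_qExpansion [NeZero M] {k : ℕ} (hk : 3 ≤ k) (a : ZMod M) :
    qExpansion 1 (tateG M (k := (k : ℤ)) (by exact_mod_cast hk) a) =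
      PowerSeries.C (tateConst M k a) +
        PowerSeries.C (lipC k) * (tateP M k a).map (Int.castRingHom ℂ) := by
  ext n
  rw [tateG_qExpansion_coeff hk a n, map_add, PowerSeries.coeff_C_mul, PowerSeries.coeff_map,
    coeff_tateP, PowerSeries.coeff_C, tateGCoeff]
  by_cases hn : n = 0
  · subst hn
    simp
  · simp [hn]

/-- For `a ≠ 0` the normalised series `lipC⁻¹ • G_{k,a}` has the integral `q`-expansion `tateP`. -/
theorem tateG_qExpansion_of_ne_zero [NeZero M] {k : ℕ} (hk : 3 ≤ k) {a : ZMod M} (ha : a ≠ 0) :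
    qExpansion 1 (tateG M (k := (k : ℤ)) (by exact_mod_cast hk) a) =
      PowerSeries.C (lipC k) * (tateP M k a).map (Int.castRingHom ℂ) := by
  rw [tateG_qExpansion hk a, tateConst, if_neg ha, map_zero, zero_add]

end Fermat.Agent.DS.TateEis
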