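/-
PROGRAMME III (S48, Deligne–Serre), leaf X1-AN-1 'TateEis' (helper20), file 5: CONSTANT TERMS ON THE
IMAGINARY AXIS.

`imAx t = i·max t 1`.  By dominated convergence (Tannery), for `3 ≤ k`,
`latG M A k (imAx t) → ∑_{v ∈ congSet M A, v₀ = 0} v₁^{-k}` as `t → ∞`; for the Tate sets
`latG M (tateSet M w a) k (imAx t) → ∑_{n ∈ ℤ, n·w₁ = a in ℤ/M} n^{-k}` (`constTerm M k (w 1) a`).
-/
import Mathlib
import Fermat.Agent.DS.TateEis.Holo

set_option autoImplicit false

namespace Fermat.Agent.DS.TateEis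

open EisensteinSeries CongruenceSubgroup ModularForm Filter Complex
open UpperHalfPlane hiding I
open scoped MatrixGroups Matrix Real Nat Topology

variable {M : ℕ}

/-- The point `i·max t 1` of the imaginary axis. -/
noncomputable def imAx (t : ℝ) : ℍ :=
  ⟨⟨0, max t 1⟩, lt_of_lt_of_le one_pos (le_max_right t 1)⟩

theorem imAx_re (t : ℝ) : (imAx t).re = 0 := rfl

theorem imAx_im (t : ℝ) : (imAx t).im = max t 1 := rfl

theorem coe_imAx (t : ℝ) : ((imAx t : ℍ) : ℂ) = ⟨0, max t 1⟩ := rfl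

theorem imAx_mem_verticalStrip (t : ℝ) : imAx t ∈ verticalStrip 0 1 := by
  rw [mem_verticalStrip_iff, imAx_re, imAx_im]
  exact ⟨by simp, le_max_right t 1⟩

theorem tendsto_eisSummand_imAx {k : ℤ} (hk : 1 ≤ k) (v : Fin 2 → ℤ) :
    Tendsto (fun t => eisSummand k v (imAx t)) atTop
      (𝓝 (if v 0 = 0 then ((v 1 : ℂ) ^ k)⁻¹ else 0)) := by
  by_cases h0 : v 0 = 0
  · rw [if_pos h0]
    have : (fun t => eisSummand k v (imAx t)) = fun _ => ((v 1 : ℂ) ^ k)⁻¹ := by
      funext t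
      simp [eisSummand, h0, zpow_neg]
    rw [this]
    exact tendsto_const_nhds
  · rw [if_neg h0]
    rw [tendsto_zero_iff_norm_tendsto_zero]
    have hnorm : ∀ t : ℝ, ‖eisSummand k v (imAx t)‖ = ‖(v 0 : ℂ) * (imAx t : ℂ) + v 1‖ ^ (-k) := by
      intro t
      simp [eisSummand, norm_zpow]
    simp only [hnorm]
    have hv0 : (0 : ℝ) < |(v 0 : ℝ)| := abs_pos.mpr (by exact_mod_cast h0)
    have hge : ∀ t : ℝ, |(v 0 : ℝ)| * t ≤ ‖(v 0 : ℂ) * (imAx t : ℂ) + v 1‖ := by
      intro t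
      have h1 : |((v 0 : ℂ) * (imAx t : ℂ) + v 1).im| ≤ ‖(v 0 : ℂ) * (imAx t : ℂ) + v 1‖ :=
        Complex.abs_im_le_norm _
      have h2 : ((v 0 : ℂ) * (imAx t : ℂ) + v 1).im = (v 0 : ℝ) * max t 1 := by
        simp [coe_imAx]
      rw [h2, abs_mul, abs_of_pos (lt_of_lt_of_le one_pos (le_max_right t 1))] at h1
      exact le_trans (mul_le_mul_of_nonneg_left (le_max_left t 1) hv0.le) h1
    have htop : Tendsto (fun t : ℝ => ‖(v 0 : ℂ) * (imAx t : ℂ) + v 1‖) atTop atTop :=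
      tendsto_atTop_mono hge (tendsto_id.const_mul_atTop hv0)
    exact (tendsto_zpow_atTop_zero (by omega : -k < 0)).comp htop

/-- Tannery: the limit of `latG` along the imaginary axis. -/
theorem latG_tendsto_imAx (A : Set (Fin 2 → ZMod M)) {k : ℤ} (hk : 3 ≤ k) :
    Tendsto (fun t => latG M A k (imAx t)) atTop
      (𝓝 (∑' v : congSet M A, if v.1 0 = 0 then ((v.1 1 : ℂ) ^ k)⁻¹ else 0)) := by
  have hk' : (2 : ℝ) < k := by norm_cast
  have p_sum : Summable fun x : congSet M A ↦ ‖x.val‖ ^ (-k) :=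
    mod_cast (summable_one_div_norm_rpow hk').subtype (· ∈ congSet M A)
  unfold latG
  refine tendsto_tsum_of_dominated_convergence
    (bound := fun x : congSet M A => r ⟨⟨0, 1⟩, one_pos⟩ ^ (-k : ℝ) * ‖x.val‖ ^ (-k))
    (p_sum.mul_left _) (fun v => tendsto_eisSummand_imAx (by omega) v.1) ?_
  refine Eventually.of_forall fun t v => ?_
  simpa only [eisSummand, one_div, ← zpow_neg, norm_zpow, ← Real.rpow_intCast,
    Int.cast_neg] using summand_bound_of_mem_verticalStrip (by positivity) v.1 one_pos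
      (imAx_mem_verticalStrip t)

/-- The constant term `∑_{n ∈ ℤ, n·x = a in ℤ/M} n^{-k}`. -/
noncomputable def constTerm (M : ℕ) (k : ℤ) (x a : ZMod M) : ℂ :=
  ∑' n : ℤ, if (n : ZMod M) * x = a then ((n : ℂ) ^ k)⁻¹ else 0

theorem tsum_congSet_tateSet_zero (w : Fin 2 → ZMod M) (a : ZMod M) {k : ℤ} (hk : 3 ≤ k) :
    (∑' v : congSet M (tateSet M w a), if v.1 0 = 0 then ((v.1 1 : ℂ) ^ k)⁻¹ else 0) =
      constTerm M k (w 1) a := by
  classical
  set g : (Fin 2 → ℤ) → ℂ := fun v => if v 0 = 0 then ((v 1 : ℂ) ^ k)⁻¹ else 0 with hg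
  have h1 : (∑' v : congSet M (tateSet M w a), g v.1) =
      ∑' p : ℤ × ℤ, (congSet M (tateSet M w a)).indicator g ((finTwoArrowEquiv ℤ).symm p) := by
    rw [tsum_subtype (congSet M (tateSet M w a)) g, ← (finTwoArrowEquiv ℤ).symm.tsum_eq]
  -- the function on `ℤ × ℤ` is supported on `{0} × ℤ`
  have h2 : ∀ p : ℤ × ℤ, (congSet M (tateSet M w a)).indicator g ((finTwoArrowEquiv ℤ).symm p) =
      if p.1 = 0 then (if (p.2 : ZMod M) * w 1 = a then ((p.2 : ℂ) ^ k)⁻¹ else 0) else 0 := by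
    intro p
    by_cases hp : p.1 = 0
    · rw [if_pos hp]
      have hmem : (finTwoArrowEquiv ℤ).symm p ∈ congSet M (tateSet M w a) ↔
          (p.2 : ZMod M) * w 1 = a := by
        rw [mem_congSet, mem_tateSet, dotProduct, Fin.sum_univ_two]
        simp [hp]
      by_cases hc : (p.2 : ZMod M) * w 1 = a
      · rw [if_pos hc, Set.indicator_of_mem (hmem.mpr hc), hg]
        simp [hp]
      · rw [if_neg hc, Set.indicator_of_notMem (fun h => hc (hmem.mp h))]
    · rw [if_neg hp]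
      by_cases hm : (finTwoArrowEquiv ℤ).symm p ∈ congSet M (tateSet M w a)
      · rw [Set.indicator_of_mem hm, hg]
        simp [hp]
      · rw [Set.indicator_of_notMem hm]
  rw [h1]
  simp only [h2]
  -- sum over `ℤ × ℤ` of a function supported on `{0} × ℤ`
  have hinj : Function.Injective (fun n : ℤ => ((0 : ℤ), n)) := fun a b h => by
    simpa using h
  rw [constTerm, ← hinj.tsum_eq]
  · simp
  · intro p hp
    rw [Function.mem_support] at hp
    by_cases h0 : p.1 = 0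
    · exact ⟨p.2, by ext <;> simp [h0]⟩
    · rw [if_neg h0] at hp
      exact absurd rfl hp

/-- The constant term of the translates of the Tate–Eisenstein series. -/
theorem latG_tateSet_tendsto_imAx (w : Fin 2 → ZMod M) (a : ZMod M) {k : ℤ} (hk : 3 ≤ k) :
    Tendsto (fun t => latG M (tateSet M w a) k (imAx t)) atTop (𝓝 (constTerm M k (w 1) a)) := by
  rw [← tsum_congSet_tateSet_zero w a hk]
  exact latG_tendsto_imAx _ hk

end Fermat.Agent.DS.TateEis
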