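/-
PROGRAMME III (S48, Deligne–Serre), leaf X1-AN-1 'TateEis' (helper20), file 6: ARITHMETIC OF THE CONSTANT
TERMS (odd weight).

`resSum M k y = ∑_{n ∈ ℤ, n ≡ y (M)} n^{-k}` (real).  For odd `k ≥ 3`: `resSum` is odd in `y`, STRICTLY
DECREASING in the representative `0 < r < M` of `y`, hence injective on non-zero residues and non-zero
on units when `M ≥ 3`.  Consequence: `constTerm M k x 1 = constTerm M k 1 1 → x = 1`.
-/
import Mathlib
import Fermat.Agent.DS.TateEis.Limit

set_option autoImplicit false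

namespace Fermat.Agent.DS.TateEis

open Filter
open scoped Topology

variable {M : ℕ}

/-- `∑_{n ≡ y (M)} n^{-k}`. -/
noncomputable def resSum (M k : ℕ) (y : ZMod M) : ℝ :=
  ∑' n : ℤ, if (n : ZMod M) = y then ((n : ℝ) ^ k)⁻¹ else 0

theorem summable_resSum {k : ℕ} (hk : 2 ≤ k) (y : ZMod M) :
    Summable fun n : ℤ => if (n : ZMod M) = y then ((n : ℝ) ^ k)⁻¹ else 0 := by
  classical
  have h := (Real.summable_one_div_int_pow (p := k)).mpr (by omega)
  have h2 := h.indicator {n : ℤ | (n : ZMod M) = y}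
  refine h2.congr fun n => ?_
  by_cases hn : (n : ZMod M) = y
  · rw [if_pos hn, Set.indicator_of_mem (show n ∈ {n : ℤ | (n : ZMod M) = y} from hn), one_div]
  · rw [if_neg hn, Set.indicator_of_notMem (show n ∉ {n : ℤ | (n : ZMod M) = y} from hn)]

theorem resSum_add_intCast (k : ℕ) (y : ZMod M) (e : ℤ) :
    resSum M k (y + e) =
      ∑' n : ℤ, if (n : ZMod M) = y then ((((n + e : ℤ) : ℝ)) ^ k)⁻¹ else 0 := by
  unfold resSum
  rw [← (Equiv.addRight e).tsum_eq]
  refine tsum_congr fun n => ?_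
  simp only [Equiv.coe_addRight]
  have hiff : (((n + e : ℤ) : ZMod M) = y + e) ↔ ((n : ZMod M) = y) := by
    push_cast
    exact add_left_inj _
  by_cases h : (n : ZMod M) = y
  · rw [if_pos h, if_pos (hiff.mpr h)]
  · rw [if_neg h, if_neg (fun h' => h (hiff.mp h'))]

theorem summable_resSum_shift {k : ℕ} (hk : 2 ≤ k) (y : ZMod M) (e : ℤ) :
    Summable fun n : ℤ => if (n : ZMod M) = y then ((((n + e : ℤ) : ℝ)) ^ k)⁻¹ else 0 := by
  have h := summable_resSum (M := M) hk (y + e)
  rw [← (Equiv.addRight e).summable_iff] at h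
  refine h.congr fun n => ?_
  simp only [Function.comp, Equiv.coe_addRight]
  have hiff : (((n + e : ℤ) : ZMod M) = y + e) ↔ ((n : ZMod M) = y) := by
    push_cast
    exact add_left_inj _
  by_cases h : (n : ZMod M) = y
  · rw [if_pos h, if_pos (hiff.mpr h)]
  · rw [if_neg h, if_neg (fun h' => h (hiff.mp h'))]

/-- `x ↦ (x^k)⁻¹` is strictly decreasing on each half-line, `k` odd. -/
theorem inv_pow_lt_inv_pow {k : ℕ} (hodd : Odd k) {x y : ℝ} (hxy : x < y)
    (h : 0 < x ∨ y < 0) : (y ^ k)⁻¹ < (x ^ k)⁻¹ := by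
  have hpow : x ^ k < y ^ k := hodd.strictMono_pow hxy
  rcases h with hx | hy
  · have hxk : 0 < x ^ k := pow_pos hx k
    exact (inv_lt_inv₀ (lt_trans hxk hpow) hxk).mpr hpow
  · have hyk : y ^ k < 0 := hodd.pow_neg hy
    exact (inv_lt_inv_of_neg hyk (lt_trans hpow hyk)).mpr hpow

/-- STRICT MONOTONICITY in the representative. -/
theorem resSum_lt_resSum {k : ℕ} (hk : 2 ≤ k) (hodd : Odd k) {r r' : ℕ} (hr : 0 < r)
    (hrr' : r < r') (hr' : r' < M) :
    resSum M k (r' : ZMod M) < resSum M k (r : ZMod M) := by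
  have he : ((r' : ZMod M)) = (r : ZMod M) + (((r' : ℤ) - (r : ℤ) : ℤ) : ZMod M) := by
    push_cast
    ring
  rw [he, resSum_add_intCast]
  unfold resSum
  refine Summable.tsum_lt_tsum (i := (r : ℤ)) ?_ ?_ (summable_resSum_shift hk _ _)
    (summable_resSum hk _)
  · intro n
    dsimp only
    by_cases hn : (n : ZMod M) = (r : ZMod M)
    · rw [if_pos hn, if_pos hn]
      have hdvd : (M : ℤ) ∣ (r : ℤ) - n := by
        have := (ZMod.intCast_eq_intCast_iff_dvd_sub n (r : ℤ) M).mp (by simpa using hn)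
        exact this
      obtain ⟨j, hj⟩ := hdvd
      have hlt : (n : ℝ) < ((n + ((r' : ℤ) - (r : ℤ)) : ℤ) : ℝ) := by
        have : n < n + ((r' : ℤ) - (r : ℤ)) := by omega
        exact_mod_cast this
      refine le_of_lt (inv_pow_lt_inv_pow hodd hlt ?_)
      -- `n = r - M j`
      rcases le_or_gt j 0 with hj0 | hj0
      · left
        have : 0 < n := by nlinarith
        exact_mod_cast this
      · right
        have h1 : n + ((r' : ℤ) - (r : ℤ)) < 0 := by nlinarith
        exact_mod_cast h1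
    · rw [if_neg hn, if_neg hn]
  · have hn : (((r : ℤ)) : ZMod M) = (r : ZMod M) := by simp
    rw [if_pos hn, if_pos hn]
    have hlt : (((r : ℤ)) : ℝ) < ((((r : ℤ)) + ((r' : ℤ) - (r : ℤ)) : ℤ) : ℝ) := by
      have : (r : ℤ) < (r : ℤ) + ((r' : ℤ) - (r : ℤ)) := by omega
      exact_mod_cast this
    refine inv_pow_lt_inv_pow hodd hlt (Or.inl ?_)
    exact_mod_cast hr

/-- `resSum` is injective on non-zero residues. -/
theorem resSum_injOn [NeZero M] {k : ℕ} (hk : 2 ≤ k) (hodd : Odd k) {y y' : ZMod M} (hy : y ≠ 0)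
    (hy' : y' ≠ 0) (h : resSum M k y = resSum M k y') : y = y' := by
  by_contra hne
  have hv : y.val ≠ y'.val := fun h' => hne (ZMod.val_injective M h')
  have hpos : 0 < y.val := Nat.pos_of_ne_zero (fun h0 => hy ((ZMod.val_eq_zero y).mp h0))
  have hpos' : 0 < y'.val := Nat.pos_of_ne_zero (fun h0 => hy' ((ZMod.val_eq_zero y').mp h0))
  have hlt : y.val < M := ZMod.val_lt y
  have hlt' : y'.val < M := ZMod.val_lt y'
  have e : ((y.val : ℕ) : ZMod M) = y := ZMod.natCast_zmod_val y
  have e' : ((y'.val : ℕ) : ZMod M) = y' := ZMod.natCast_zmod_val y'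
  rcases lt_or_gt_of_ne hv with h1 | h1
  · have := resSum_lt_resSum (M := M) hk hodd hpos h1 hlt'
    rw [e, e'] at this
    linarith
  · have := resSum_lt_resSum (M := M) hk hodd hpos' h1 hlt
    rw [e, e'] at this
    linarith

/-- `resSum` is odd. -/
theorem resSum_neg {k : ℕ} (hodd : Odd k) (y : ZMod M) : resSum M k (-y) = -resSum M k y := by
  unfold resSum
  rw [← tsum_neg, ← (Equiv.neg ℤ).tsum_eq]
  refine tsum_congr fun n => ?_
  simp only [Equiv.neg_apply]
  have hiff : (((-n : ℤ) : ZMod M) = -y) ↔ ((n : ZMod M) = y) := by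
    push_cast
    exact neg_inj
  by_cases h : (n : ZMod M) = y
  · rw [if_pos h, if_pos (hiff.mpr h)]
    push_cast
    rw [hodd.neg_pow, inv_neg]
  · rw [if_neg h, if_neg (fun h' => h (hiff.mp h')), neg_zero]

/-- `resSum` does not vanish on units, `M ≥ 3`. -/
theorem resSum_ne_zero [NeZero M] (hM : 3 ≤ M) {k : ℕ} (hk : 2 ≤ k) (hodd : Odd k) {y : ZMod M}
    (hy : IsUnit y) : resSum M k y ≠ 0 := by
  intro h0
  have : Fact (1 < M) := ⟨by omega⟩
  have hy0 : y ≠ 0 := hy.ne_zero
  have hny0 : -y ≠ 0 := neg_ne_zero.mpr hy0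
  have h1 : resSum M k (-y) = resSum M k y := by rw [resSum_neg hodd, h0, neg_zero]
  have h2 : -y = y := resSum_injOn hk hodd hny0 hy0 h1
  have h3 : (2 : ZMod M) * y = 0 := by
    have : y + y = 0 := by
      nth_rewrite 1 [← h2]
      exact neg_add_cancel y
    rw [two_mul]
    exact this
  have h4 : (2 : ZMod M) = 0 := by
    obtain ⟨u, rfl⟩ := hy
    exact (Units.mul_left_eq_zero u).mp h3
  have h5 : ((2 : ℕ) : ZMod M) = 0 := by exact_mod_cast h4
  rw [ZMod.natCast_eq_zero_iff] at h5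
  have := Nat.le_of_dvd (by norm_num) h5
  omega

/-- The constant term in terms of `resSum`. -/
theorem constTerm_of_isUnit {k : ℕ} (hk : 2 ≤ k) {x : ZMod M} (hx : IsUnit x) :
    constTerm M k x 1 = ((resSum M k (hx.unit⁻¹ : (ZMod M)ˣ) : ℝ) : ℂ) := by
  unfold constTerm resSum
  rw [Complex.ofReal_tsum]
  refine tsum_congr fun n => ?_
  have hiff : ((n : ZMod M) * x = 1) ↔ ((n : ZMod M) = ((hx.unit⁻¹ : (ZMod M)ˣ) : ZMod M)) := by
    constructor
    · intro h
      have : (n : ZMod M) * (hx.unit : ZMod M) = 1 := by simpa using h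
      rw [← Units.eq_mul_inv_iff_mul_eq] at this
      simpa using this
    · intro h
      rw [h]
      have : ((hx.unit⁻¹ : (ZMod M)ˣ) : ZMod M) * (hx.unit : ZMod M) = 1 := by
        rw [← Units.val_mul, inv_mul_cancel, Units.val_one]
      simpa using this
  by_cases h : (n : ZMod M) * x = 1
  · rw [if_pos h, if_pos (hiff.mp h)]
    push_cast
    rw [zpow_natCast]
  · rw [if_neg h, if_neg (fun h' => h (hiff.mpr h'))]
    simp

theorem constTerm_of_not_isUnit (k : ℤ) {x : ZMod M} (hx : ¬ IsUnit x) :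
    constTerm M k x 1 = 0 := by
  unfold constTerm
  have : ∀ n : ℤ, (if (n : ZMod M) * x = 1 then (((n : ℂ)) ^ k)⁻¹ else 0) = 0 := by
    intro n
    rw [if_neg]
    intro h
    exact hx (IsUnit.of_mul_eq_one_right _ h)
  simp only [this, tsum_zero]

/-- SEPARATION BY CONSTANT TERMS. -/
theorem eq_one_of_constTerm_eq [NeZero M] (hM : 3 ≤ M) {k : ℕ} (hk : 2 ≤ k) (hodd : Odd k)
    {x : ZMod M} (h : constTerm M k x 1 = constTerm M k 1 1) : x = 1 := by
  have h1 : constTerm M k (1 : ZMod M) 1 = ((resSum M k 1 : ℝ) : ℂ) := by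
    rw [constTerm_of_isUnit hk isUnit_one]
    congr 2
    simp
  have hne : resSum M k (1 : ZMod M) ≠ 0 := resSum_ne_zero hM hk hodd isUnit_one
  by_cases hx : IsUnit x
  · rw [constTerm_of_isUnit hk hx, h1] at h
    have h2 : resSum M k ((hx.unit⁻¹ : (ZMod M)ˣ) : ZMod M) = resSum M k 1 := by
      exact_mod_cast h
    have : Fact (1 < M) := ⟨by omega⟩
    have h3 := resSum_injOn hk hodd (Units.ne_zero _) one_ne_zero h2
    have h4 : (hx.unit⁻¹ : (ZMod M)ˣ) = 1 := Units.ext (by simpa using h3)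
    have h5 : hx.unit = 1 := by
      have := inv_eq_one.mp h4
      exact this
    have := congrArg (fun u : (ZMod M)ˣ => (u : ZMod M)) h5
    simpa using this
  · rw [constTerm_of_not_isUnit _ hx, h1] at h
    exact absurd (by exact_mod_cast h.symm) hne

end Fermat.Agent.DS.TateEis
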